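/-
S26 / block LOC (local structure of smooth varieties): STATEMENTS (stubs).  Architect: helper86.
-/
import Fermat.Agent.S26.Defs

set_option autoImplicit false

universe u

open CategoryTheory CategoryTheory.Limits AlgebraicGeometry

namespace Fermat.Agent.S26.Loc.WIP

/-- L1 `Loc/Coord.lean` (Mathlib only): `g` elements of `m` generate the maximal ideal of `B_m`. -/
theorem exists_generators (K : Type*) [Field K] (g : ℕ) (B : Type*) [CommRing B] [Algebra K B]
    [Algebra.IsStandardSmoothOfRelativeDimension g K B] (m : Ideal B) [m.IsMaximal]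
    (hres : Function.Surjective (algebraMap K (B ⧸ m))) :
    ∃ t : Fin g → B, (∀ i, t i ∈ m) ∧
      Ideal.span (Set.range fun i => algebraMap B (Localization.AtPrime m) (t i)) =
        IsLocalRing.maximalIdeal (Localization.AtPrime m) := sorry

/-- L2 `Loc/Etale.lean` (Mathlib + Etc/Alg): such a system of generators defines etale
coordinates. -/
theorem isEtaleAt_aeval (K : Type*) [Field K] (g : ℕ) (B : Type*) [CommRing B] [Algebra K B]
    [Algebra.IsStandardSmoothOfRelativeDimension g K B] (m : Ideal B) [m.IsMaximal]
    (hres : Function.Surjective (algebraMap K (B ⧸ m))) (t : Fin g → B) (ht : ∀ i, t i ∈ m)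
    (hspan : Ideal.span (Set.range fun i => algebraMap B (Localization.AtPrime m) (t i)) =
        IsLocalRing.maximalIdeal (Localization.AtPrime m)) :
    letI : Algebra (MvPolynomial (Fin g) K) B := (MvPolynomial.aeval t).toAlgebra
    Algebra.IsEtaleAt (MvPolynomial (Fin g) K) m := sorry

/-- L3 `Loc/Ufd.lean` : the local rings at the maximal ideals are factorial. -/
theorem ufd_localization_of_smooth (K : Type*) [Field K] [IsAlgClosed K] (g : ℕ) (B : Type*)
    [CommRing B] [Algebra K B] [Algebra.IsStandardSmoothOfRelativeDimension g K B]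
    (m : Ideal B) [m.IsMaximal] :
    ∃ _ : IsDomain (Localization.AtPrime m),
      UniqueFactorizationMonoid (Localization.AtPrime m) := sorry

/-- L4 `Loc/Stalk.lean` : the scheme version. -/
theorem ufd_stalk {K : Type u} [Field K] [IsAlgClosed K] {X : Scheme.{u}} (x : X ⟶ SK K) (g : ℕ)
    [SmoothOfRelativeDimension g x] (z : X) (hz : IsClosed ({z} : Set X)) :
    ∃ _ : IsDomain (X.presheaf.stalk z), UniqueFactorizationMonoid (X.presheaf.stalk z) := sorry

/-- L5 `Loc/Integral.lean` : a connected smooth scheme over an algebraically closed field is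
integral. -/
theorem isIntegral_of_smooth_of_connected {K : Type u} [Field K] [IsAlgClosed K] {X : Scheme.{u}}
    (x : X ⟶ SK K) [Smooth x] [QuasiCompact x] [ConnectedSpace X] : IsIntegral X := sorry

end Fermat.Agent.S26.Loc.WIP
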